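/-
(R) Petersson reducedness — part (W): an integrable partition of unity on the upper half-plane
for a finite-index subgroup of `SL(2, ℤ)`.

`exists_weight Γ` : there is a measurable `W : ℍ → ℝ`, `0 ≤ W ≤ 1`, integrable for the invariant
measure of `ℍ`, with `∑_{γ ∈ Γ} W (γ • τ) = 1` for every `τ`.
-/
import Mathlib

set_option autoImplicit false

open MeasureTheory UpperHalfPlane ModularGroup Matrix.SpecialLinearGroup
open scoped MatrixGroups Modular ENNReal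

namespace Fermat.Agent.Pet

noncomputable section

instance countable_SL2Z : Countable SL(2, ℤ) :=
  haveI : Countable (Matrix (Fin 2) (Fin 2) ℤ) :=
    show Countable (Fin 2 → Fin 2 → ℤ) from inferInstance
  Subtype.countable

theorem measurable_sl_smul (g : SL(2, ℤ)) : Measurable (fun τ : ℍ => g • τ) :=
  measurable_const_smul (mapGL ℝ g)

theorem measurableSet_fd : MeasurableSet (𝒟 : Set ℍ) := isClosed_fd.measurableSet

/-- The indicator of the standard fundamental domain. -/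
def ind (τ : ℍ) : ℝ≥0∞ := (𝒟 : Set ℍ).indicator (fun _ => (1 : ℝ≥0∞)) τ

theorem measurable_ind : Measurable ind :=
  measurable_const.indicator measurableSet_fd

theorem ind_le_one (τ : ℍ) : ind τ ≤ 1 := by
  unfold ind
  by_cases h : τ ∈ (𝒟 : Set ℍ)
  · rw [Set.indicator_of_mem h]
  · rw [Set.indicator_of_notMem h]; exact zero_le_one

theorem ind_of_mem {τ : ℍ} (h : τ ∈ (𝒟 : Set ℍ)) : ind τ = 1 := Set.indicator_of_mem h _

theorem ind_of_notMem {τ : ℍ} (h : τ ∉ (𝒟 : Set ℍ)) : ind τ = 0 := Set.indicator_of_notMem h _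

/-- The number of `g ∈ SL(2, ℤ)` with `g • τ ∈ 𝒟`. -/
def cnt (τ : ℍ) : ℝ≥0∞ := ∑' g : SL(2, ℤ), ind (g • τ)

theorem measurable_cnt : Measurable cnt :=
  Measurable.tsum fun g => measurable_ind.comp (measurable_sl_smul g)

theorem cnt_smul (g : SL(2, ℤ)) (τ : ℍ) : cnt (g • τ) = cnt τ := by
  unfold cnt
  rw [← (Equiv.mulRight g).tsum_eq (fun h : SL(2, ℤ) => ind (h • τ))]
  refine tsum_congr fun h => ?_
  simp only [Equiv.coe_mulRight, mul_smul]

theorem one_le_cnt (τ : ℍ) : 1 ≤ cnt τ := by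
  obtain ⟨g, hg⟩ := exists_smul_mem_fd τ
  calc (1 : ℝ≥0∞) = ind (g • τ) := (ind_of_mem hg).symm
    _ ≤ cnt τ := ENNReal.le_tsum g

theorem cnt_ne_zero (τ : ℍ) : cnt τ ≠ 0 := fun h => by
  have := one_le_cnt τ
  rw [h] at this
  exact absurd this (by simp)

/-- For `z ∈ 𝒟`, only finitely many `g` have `g • z ∈ 𝒟` (Serre's theorem, as in Mathlib). -/
theorem finite_smul_mem_fd_of_mem {z : ℍ} (hz : z ∈ (𝒟 : Set ℍ)) :
    {g : SL(2, ℤ) | g • z ∈ (𝒟 : Set ℍ)}.Finite := by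
  refine Set.Finite.subset (s := ({1, -1, T, -T, T⁻¹, -T⁻¹, S, -S, T * S, -(T * S),
    T⁻¹ * S * T⁻¹, -(T⁻¹ * S * T⁻¹), S * T⁻¹, -(S * T⁻¹), S * T, -(S * T), T * S * T,
    -(T * S * T), T⁻¹ * S, -(T⁻¹ * S)} : Set SL(2, ℤ))) (Set.toFinite _) ?_
  intro g hg
  have h := cases_of_mem_fd_smul_mem_fd hz hg
  simp only [Set.mem_insert_iff, Set.mem_singleton_iff]
  rcases h with (h | h) | ⟨h | h, -⟩ | ⟨h | h, -⟩ | ⟨h | h, -⟩ | ⟨h | h, -⟩ | ⟨h | h, -⟩ |
    ⟨h | h, -⟩ | ⟨h | h, -⟩ | ⟨h | h, -⟩ | ⟨h | h, -⟩ <;> simp only [h, true_or, or_true]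

theorem finite_smul_mem_fd (τ : ℍ) : {g : SL(2, ℤ) | g • τ ∈ (𝒟 : Set ℍ)}.Finite := by
  obtain ⟨g₀, hg₀⟩ := exists_smul_mem_fd τ
  have h := (finite_smul_mem_fd_of_mem hg₀).preimage
    (f := fun g : SL(2, ℤ) => g * g₀⁻¹) (mul_left_injective g₀⁻¹).injOn
  refine h.subset fun g hg => ?_
  simp only [Set.mem_preimage, Set.mem_ofPred_eq, ← mul_smul, inv_mul_cancel_right]
  exact hg

theorem cnt_ne_top (τ : ℍ) : cnt τ ≠ ⊤ := by
  have hsupp : ∀ g ∉ (finite_smul_mem_fd τ).toFinset, ind (g • τ) = 0 := by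
    intro g hg
    apply ind_of_notMem
    intro hmem
    exact hg ((finite_smul_mem_fd τ).mem_toFinset.mpr hmem)
  unfold cnt
  rw [tsum_eq_sum hsupp]
  exact (ENNReal.sum_lt_top.mpr fun g _ => lt_of_le_of_lt (ind_le_one _) ENNReal.one_lt_top).ne

/-- The `SL(2, ℤ)`-partition of unity. -/
def wt1 (τ : ℍ) : ℝ≥0∞ := ind τ / cnt τ

theorem measurable_wt1 : Measurable wt1 := measurable_ind.div measurable_cnt

theorem wt1_le_ind (τ : ℍ) : wt1 τ ≤ ind τ := by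
  unfold wt1
  exact ENNReal.div_le_of_le_mul (le_mul_of_one_le_right' (one_le_cnt τ))

theorem tsum_wt1 (τ : ℍ) : ∑' g : SL(2, ℤ), wt1 (g • τ) = 1 := by
  have h : ∀ g : SL(2, ℤ), wt1 (g • τ) = ind (g • τ) * (cnt τ)⁻¹ := fun g => by
    rw [wt1, cnt_smul, div_eq_mul_inv]
  simp_rw [h]
  rw [ENNReal.tsum_mul_right]
  exact ENNReal.mul_inv_cancel (cnt_ne_zero τ) (cnt_ne_top τ)

theorem lintegral_wt1_le : ∫⁻ τ, wt1 τ ≤ volume (𝒟 : Set ℍ) := by
  calc ∫⁻ τ, wt1 τ ≤ ∫⁻ τ, ind τ := lintegral_mono wt1_le_ind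
    _ = volume (𝒟 : Set ℍ) := by
      unfold ind
      rw [lintegral_indicator measurableSet_fd, setLIntegral_const, one_mul]

/-! ### Finite-index subgroups -/

variable (Γ : Subgroup SL(2, ℤ))

/-- A left transversal of `Γ` in `SL(2, ℤ)`. -/
def transv : Set SL(2, ℤ) := (Subgroup.exists_isComplement_left Γ 1).choose

theorem isComplement_transv : Subgroup.IsComplement (transv Γ) (Γ : Set SL(2, ℤ)) :=
  (Subgroup.exists_isComplement_left Γ 1).choose_spec.1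

instance finite_transv [Γ.FiniteIndex] : Finite (transv Γ) :=
  (isComplement_transv Γ).finite_left_iff.mpr inferInstance

/-- The `Γ`-partition of unity, `ℝ≥0∞`-valued. -/
def wtE (τ : ℍ) : ℝ≥0∞ := ∑' c : transv Γ, wt1 ((c : SL(2, ℤ)) • τ)

theorem measurable_wtE : Measurable (wtE Γ) := by
  have : Countable (transv Γ) := Subtype.countable
  exact Measurable.tsum fun c => measurable_wt1.comp (measurable_sl_smul _)

theorem tsum_wtE (τ : ℍ) : ∑' γ : Γ, wtE Γ ((γ : SL(2, ℤ)) • τ) = 1 := by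
  unfold wtE
  rw [ENNReal.tsum_comm, ← ENNReal.tsum_prod (f := fun (c : transv Γ) (γ : Γ) =>
    wt1 ((c : SL(2, ℤ)) • (γ : SL(2, ℤ)) • τ))]
  rw [← tsum_wt1 τ]
  have hbij : Function.Bijective (fun x : transv Γ × (Γ : Set SL(2, ℤ)) => (x.1 : SL(2, ℤ)) * x.2) :=
    isComplement_transv Γ
  rw [← (Equiv.ofBijective _ hbij).tsum_eq (fun g : SL(2, ℤ) => wt1 (g • τ))]
  refine tsum_congr fun p => ?_
  simp only [Equiv.ofBijective_apply, mul_smul]

theorem wtE_le_one (τ : ℍ) : wtE Γ τ ≤ 1 := by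
  have h := tsum_wtE Γ τ
  calc wtE Γ τ = wtE Γ (((1 : Γ) : SL(2, ℤ)) • τ) := by simp
    _ ≤ ∑' γ : Γ, wtE Γ ((γ : SL(2, ℤ)) • τ) :=
      ENNReal.le_tsum (f := fun γ : Γ => wtE Γ ((γ : SL(2, ℤ)) • τ)) 1
    _ = 1 := h

/-! ### The hyperbolic area of the fundamental domain is finite -/

theorem lintegral_Ici_half_lt_top :
    ∫⁻ y : ℝ in Set.Ici (1 / 2 : ℝ), ((1 / ‖y‖₊) ^ 2 : NNReal) < ⊤ := by
  have h1 : IntegrableOn (fun t : ℝ => t ^ (-2 : ℝ)) (Set.Ioi (1 / 4 : ℝ)) :=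
    integrableOn_Ioi_rpow_of_lt (by norm_num) (by norm_num)
  have h2 : IntegrableOn (fun t : ℝ => t ^ (-2 : ℝ)) (Set.Ici (1 / 2 : ℝ)) :=
    h1.mono_set (fun x hx => lt_of_lt_of_le (by norm_num) (Set.mem_Ici.mp hx))
  have h3 := h2.2
  rw [HasFiniteIntegral] at h3
  refine lt_of_eq_of_lt ?_ h3
  refine setLIntegral_congr_fun measurableSet_Ici fun y hy => ?_
  have hy0 : 0 < y := lt_of_lt_of_le (by norm_num) (Set.mem_Ici.mp hy)
  rw [← ofReal_norm, Real.norm_of_nonneg (Real.rpow_nonneg hy0.le _)]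
  rw [← ENNReal.ofReal_coe_nnreal]
  congr 1
  simp only [NNReal.coe_pow, NNReal.coe_div, NNReal.coe_one, coe_nnnorm, Real.norm_of_nonneg hy0.le]
  rw [Real.rpow_neg hy0.le, Real.rpow_two, one_div, inv_pow]

theorem volume_fd_lt_top : volume (𝒟 : Set ℍ) < ⊤ := by
  rw [volume_eq_lintegral]
  set P : Set ℂ := Complex.measurableEquivRealProd ⁻¹'
    (Set.Icc (-(1 / 2) : ℝ) (1 / 2) ×ˢ Set.Ici (1 / 2 : ℝ)) with hP
  have hsub : (UpperHalfPlane.coe '' (𝒟 : Set ℍ)) ⊆ P := by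
    rintro _ ⟨τ, hτ, rfl⟩
    have h3 := three_le_four_mul_im_sq_of_mem_fd hτ
    have him : (1 / 2 : ℝ) ≤ τ.im := by nlinarith [τ.im_pos]
    have hre : |τ.re| ≤ 1 / 2 := hτ.2
    simp only [hP, Set.mem_preimage, Set.mem_prod, Set.mem_Icc, Set.mem_Ici,
      Complex.measurableEquivRealProd_apply]
    exact ⟨abs_le.mp hre, him⟩
  refine lt_of_le_of_lt (lintegral_mono_set hsub) ?_
  have hmp := Complex.volume_preserving_equiv_real_prod
  have hmeas : MeasurableSet (Set.Icc (-(1 / 2) : ℝ) (1 / 2) ×ˢ Set.Ici (1 / 2 : ℝ)) :=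
    measurableSet_Icc.prod measurableSet_Ici
  have key : ∫⁻ z in P, ((1 / ‖z.im‖₊) ^ 2 : NNReal) =
      ∫⁻ p in (Set.Icc (-(1 / 2) : ℝ) (1 / 2) ×ˢ Set.Ici (1 / 2 : ℝ)),
        ((1 / ‖p.2‖₊) ^ 2 : NNReal) := by
    rw [hP, ← hmp.setLIntegral_comp_preimage_emb
      Complex.measurableEquivRealProd.measurableEmbedding]
    rfl
  rw [key, Measure.volume_eq_prod, ← Measure.prod_restrict, lintegral_prod]
  · simp only [lintegral_const, Measure.restrict_apply MeasurableSet.univ, Set.univ_inter]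
    refine ENNReal.mul_lt_top lintegral_Ici_half_lt_top ?_
    rw [Real.volume_Icc]
    exact ENNReal.ofReal_lt_top
  · apply Measurable.aemeasurable
    fun_prop


theorem lintegral_wt1_lt_top : ∫⁻ τ, wt1 τ < ⊤ :=
  lt_of_le_of_lt lintegral_wt1_le volume_fd_lt_top

theorem lintegral_wt1_smul (g : SL(2, ℤ)) : ∫⁻ τ, wt1 (g • τ) = ∫⁻ τ, wt1 τ :=
  (measurePreserving_smul (mapGL ℝ g) (volume : Measure ℍ)).lintegral_comp measurable_wt1

theorem lintegral_wtE_lt_top [Γ.FiniteIndex] : ∫⁻ τ, wtE Γ τ < ⊤ := by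
  have : Fintype (transv Γ) := Fintype.ofFinite _
  unfold wtE
  rw [lintegral_tsum (f := fun (c : transv Γ) (τ : ℍ) => wt1 ((c : SL(2, ℤ)) • τ))
    fun c => (measurable_wt1.comp (measurable_sl_smul _)).aemeasurable]
  simp_rw [lintegral_wt1_smul]
  rw [tsum_fintype, Finset.sum_const, nsmul_eq_mul]
  exact ENNReal.mul_lt_top (ENNReal.natCast_lt_top _) lintegral_wt1_lt_top

/-- The `Γ`-partition of unity, real-valued. -/
def wt (τ : ℍ) : ℝ := (wtE Γ τ).toReal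

theorem measurable_wt : Measurable (wt Γ) := (measurable_wtE Γ).ennreal_toReal

theorem wt_nonneg (τ : ℍ) : 0 ≤ wt Γ τ := ENNReal.toReal_nonneg

theorem wt_le_one (τ : ℍ) : wt Γ τ ≤ 1 := by
  have h := ENNReal.toReal_mono ENNReal.one_ne_top (wtE_le_one Γ τ)
  simpa [wt] using h

theorem integrable_wt [Γ.FiniteIndex] : Integrable (wt Γ) :=
  integrable_toReal_of_lintegral_ne_top (measurable_wtE Γ).aemeasurable
    (lintegral_wtE_lt_top Γ).ne

theorem hasSum_wt (τ : ℍ) : HasSum (fun γ : Γ => wt Γ ((γ : SL(2, ℤ)) • τ)) 1 := by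
  have h := ENNReal.hasSum_toReal (f := fun γ : Γ => wtE Γ ((γ : SL(2, ℤ)) • τ))
    (by rw [tsum_wtE]; exact ENNReal.one_ne_top)
  have h2 : ∑' γ : Γ, (wtE Γ ((γ : SL(2, ℤ)) • τ)).toReal = 1 := by
    rw [← ENNReal.tsum_toReal_eq (fun γ => ne_top_of_le_ne_top ENNReal.one_ne_top
      (wtE_le_one Γ _)), tsum_wtE]
    rfl
  rw [h2] at h
  exact h

/-- **(W)** An integrable partition of unity for a finite-index subgroup of `SL(2, ℤ)`. -/
theorem exists_weight [Γ.FiniteIndex] : ∃ W : ℍ → ℝ, Measurable W ∧ (∀ τ, 0 ≤ W τ) ∧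
    (∀ τ, W τ ≤ 1) ∧ Integrable W ∧
    ∀ τ, HasSum (fun γ : Γ => W (mapGL ℝ (γ : SL(2, ℤ)) • τ)) 1 :=
  ⟨wt Γ, measurable_wt Γ, wt_nonneg Γ, wt_le_one Γ, integrable_wt Γ, hasSum_wt Γ⟩

end

end Fermat.Agent.Pet
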