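/-
(R) Petersson reducedness — part (P): the Petersson pairing in weight 2 and level `Γ₀(N)`,
defined with the integrable partition of unity of `Pet/Weight.lean` (no fundamental domain of
`Γ₀(N)` is needed).  Integrability, additivity and positive definiteness.
-/
import Mathlib
import Fermat.Agent.Pet.Weight

set_option autoImplicit false
set_option linter.unusedSectionVars false

open MeasureTheory UpperHalfPlane ModularGroup Matrix.SpecialLinearGroup CongruenceSubgroup
open scoped MatrixGroups Modular ENNReal ModularForm ComplexConjugate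

namespace Fermat.Agent.Pet

noncomputable section

/-! ### Pointwise facts on the Petersson integrand -/

theorem petersson_self (k : ℤ) (f : ℍ → ℂ) (τ : ℍ) :
    petersson k f f τ = ((‖f τ‖ ^ 2 * τ.im ^ k : ℝ) : ℂ) := by
  unfold petersson
  rw [Complex.conj_mul']
  push_cast
  rfl

theorem norm_petersson_self (k : ℤ) (f : ℍ → ℂ) (τ : ℍ) :
    ‖petersson k f f τ‖ = ‖f τ‖ ^ 2 * τ.im ^ k := by
  rw [petersson_self, Complex.norm_real, Real.norm_of_nonneg]
  have := τ.im_pos
  positivity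

theorem norm_petersson (k : ℤ) (f h : ℍ → ℂ) (τ : ℍ) :
    ‖petersson k f h τ‖ = ‖f τ‖ * ‖h τ‖ * τ.im ^ k := by
  unfold petersson
  have him : (0 : ℝ) < τ.im ^ k := zpow_pos τ.im_pos k
  rw [norm_mul, norm_mul, Complex.norm_conj, norm_zpow, Complex.norm_real,
    Real.norm_of_nonneg τ.im_pos.le]

theorem norm_petersson_sq (k : ℤ) (f h : ℍ → ℂ) (τ : ℍ) :
    ‖petersson k f h τ‖ ^ 2 = ‖petersson k f f τ‖ * ‖petersson k h h τ‖ := by
  rw [norm_petersson, norm_petersson_self, norm_petersson_self]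
  ring

theorem norm_petersson_two_slash (f h : ℍ → ℂ) (δ : GL (Fin 2) ℝ) (τ : ℍ) :
    ‖petersson 2 (f ∣[(2 : ℤ)] δ) (h ∣[(2 : ℤ)] δ) τ‖ = ‖petersson 2 f h (δ • τ)‖ := by
  rw [petersson_slash]
  simp

/-- Functions whose Petersson square is bounded. -/
def IsPetBdd (f : ℍ → ℂ) : Prop := ∃ C : ℝ, ∀ τ, ‖petersson 2 f f τ‖ ≤ C

theorem IsPetBdd.slash {f : ℍ → ℂ} (hf : IsPetBdd f) (δ : GL (Fin 2) ℝ) :
    IsPetBdd (f ∣[(2 : ℤ)] δ) := by
  obtain ⟨C, hC⟩ := hf
  exact ⟨C, fun τ => by rw [norm_petersson_two_slash]; exact hC _⟩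

theorem IsPetBdd.exists_bound {f h : ℍ → ℂ} (hf : IsPetBdd f) (hh : IsPetBdd h) :
    ∃ C : ℝ, ∀ τ, ‖petersson 2 f h τ‖ ≤ C := by
  obtain ⟨C, hC⟩ := hf
  obtain ⟨D, hD⟩ := hh
  refine ⟨Real.sqrt (C * D), fun τ => ?_⟩
  apply Real.le_sqrt_of_sq_le
  rw [norm_petersson_sq]
  exact mul_le_mul (hC τ) (hD τ) (norm_nonneg _) ((norm_nonneg _).trans (hC τ))

theorem isPetBdd_cuspForm {N : ℕ} [NeZero N] (f : CuspForm (Gamma0 N) 2) : IsPetBdd (f : ℍ → ℂ) :=
  CuspFormClass.petersson_bounded_left 2 (Gamma0 N : Subgroup (GL (Fin 2) ℝ)) f f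

/-! ### Measurability of slashes -/

theorem measurable_slash {f : ℍ → ℂ} (hf : Measurable f) (k : ℤ) (δ : GL (Fin 2) ℝ) :
    Measurable (f ∣[k] δ) := by
  have h : (f ∣[k] δ) = fun τ : ℍ => (σ δ) (f (δ • τ)) *
      ((|(Matrix.GeneralLinearGroup.det δ : ℝ)| : ℝ) : ℂ) ^ (k - 1) * denom δ τ ^ (-k) :=
    funext fun τ => ModularForm.slash_apply f δ τ
  rw [h]
  have h1 : Measurable fun τ : ℍ => (σ δ) (f (δ • τ)) :=
    (σ δ).continuous.measurable.comp (hf.comp (measurable_const_smul δ))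
  have h2 : Measurable fun τ : ℍ => denom δ τ := by
    unfold denom
    fun_prop
  exact (h1.mul measurable_const).mul (h2.pow_const _)

theorem measurable_petersson {f h : ℍ → ℂ} (hf : Measurable f) (hh : Measurable h) (k : ℤ) :
    Measurable (petersson k f h) := by
  unfold petersson
  have h3 : Measurable fun τ : ℍ => ((τ.im : ℝ) : ℂ) :=
    Complex.measurable_ofReal.comp UpperHalfPlane.continuous_im.measurable
  exact ((Complex.continuous_conj.measurable.comp hf).mul hh).mul (h3.pow_const _)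

/-! ### The pairing -/

variable (N : ℕ) [NeZero N]

/-- The weight function of level `Γ₀(N)`. -/
def w0 (τ : ℍ) : ℝ := wt (Gamma0 N) τ

theorem measurable_w0 : Measurable (w0 N) := measurable_wt _

theorem w0_nonneg (τ : ℍ) : 0 ≤ w0 N τ := wt_nonneg _ τ

theorem w0_le_one (τ : ℍ) : w0 N τ ≤ 1 := wt_le_one _ τ

theorem integrable_w0 : Integrable (w0 N) := integrable_wt _

theorem hasSum_w0 (τ : ℍ) :
    HasSum (fun γ : Gamma0 N => w0 N (mapGL ℝ (γ : SL(2, ℤ)) • τ)) 1 := hasSum_wt _ τ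

theorem integrable_w0_smul (δ : GL (Fin 2) ℝ) : Integrable (fun τ => w0 N (δ • τ)) :=
  (measurePreserving_smul δ (volume : Measure ℍ)).integrable_comp_of_integrable (integrable_w0 N)

/-- An integrable real weight times a bounded measurable function is integrable. -/
theorem integrable_weight_mul {v : ℍ → ℝ} (hv : Integrable v) {P : ℍ → ℂ} (hP : Measurable P)
    {C : ℝ} (hC : ∀ τ, ‖P τ‖ ≤ C) : Integrable (fun τ => (v τ : ℂ) * P τ) :=
  hv.ofReal.mul_bdd hP.aestronglyMeasurable (Filter.Eventually.of_forall hC)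

/-- The Petersson pairing of two functions on `ℍ` (weight 2, level `Γ₀(N)`). -/
def petFun (f g : ℍ → ℂ) : ℂ := ∫ τ, (w0 N τ : ℂ) * petersson 2 f g τ

theorem integrable_petFun {f g : ℍ → ℂ} (hf : Measurable f) (hg : Measurable g)
    (hfb : IsPetBdd f) (hgb : IsPetBdd g) :
    Integrable (fun τ => (w0 N τ : ℂ) * petersson 2 f g τ) := by
  obtain ⟨C, hC⟩ := hfb.exists_bound hgb
  exact integrable_weight_mul (integrable_w0 N) (measurable_petersson hf hg 2) hC

theorem petFun_add_left {f₁ f₂ g : ℍ → ℂ} (hf₁ : Measurable f₁) (hf₂ : Measurable f₂)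
    (hg : Measurable g) (h₁ : IsPetBdd f₁) (h₂ : IsPetBdd f₂) (hgb : IsPetBdd g) :
    petFun N (f₁ + f₂) g = petFun N f₁ g + petFun N f₂ g := by
  unfold petFun
  rw [← integral_add (integrable_petFun N hf₁ hg h₁ hgb) (integrable_petFun N hf₂ hg h₂ hgb)]
  refine integral_congr_ae (Filter.Eventually.of_forall fun τ => ?_)
  simp only [petersson, Pi.add_apply, map_add]
  ring

theorem petFun_add_right {f g₁ g₂ : ℍ → ℂ} (hf : Measurable f) (hg₁ : Measurable g₁)
    (hg₂ : Measurable g₂) (hfb : IsPetBdd f) (h₁ : IsPetBdd g₁) (h₂ : IsPetBdd g₂) :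
    petFun N f (g₁ + g₂) = petFun N f g₁ + petFun N f g₂ := by
  unfold petFun
  rw [← integral_add (integrable_petFun N hf hg₁ hfb h₁) (integrable_petFun N hf hg₂ hfb h₂)]
  refine integral_congr_ae (Filter.Eventually.of_forall fun τ => ?_)
  simp only [petersson, Pi.add_apply]
  ring

/-! ### Positive definiteness on cusp forms -/

instance isOpenPosMeasure_volume_uhp : (volume : Measure ℍ).IsOpenPosMeasure := by
  have h1 : (volume.comap UpperHalfPlane.coe : Measure ℍ).IsOpenPosMeasure := by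
    refine ⟨fun U hU hne => ?_⟩
    rw [measurableEmbedding_coe.comap_apply]
    exact ((isOpenEmbedding_coe.isOpenMap U hU).measure_pos volume (hne.image _)).ne'
  rw [volume_def]
  refine Measure.AbsolutelyContinuous.isOpenPosMeasure (μ := volume.comap UpperHalfPlane.coe)
    (withDensity_absolutelyContinuous' ?_ ?_)
  · apply Measurable.aemeasurable
    have : Measurable fun z : ℍ => (NNReal.mk z.im z.im_pos.le : NNReal) :=
      (UpperHalfPlane.continuous_im.measurable).subtype_mk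
    fun_prop
  · refine Filter.Eventually.of_forall fun z => ?_
    have hz : (NNReal.mk z.im z.im_pos.le : NNReal) ≠ 0 := by
      intro h
      have := congrArg NNReal.toReal h
      simp at this
      exact z.im_pos.ne' this
    exact ENNReal.coe_ne_zero.mpr (pow_ne_zero 2 (one_div_ne_zero hz))

/-- The Petersson pairing of two cusp forms of weight 2 and level `Γ₀(N)`. -/
def pet (f g : CuspForm (Gamma0 N) 2) : ℂ := petFun N (f : ℍ → ℂ) (g : ℍ → ℂ)

theorem measurable_cuspForm (f : CuspForm (Gamma0 N) 2) : Measurable (f : ℍ → ℂ) :=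
  (CuspFormClass.holo f).continuous.measurable

theorem pet_add_left (f₁ f₂ g : CuspForm (Gamma0 N) 2) :
    pet N (f₁ + f₂) g = pet N f₁ g + pet N f₂ g := by
  change petFun N ((f₁ : ℍ → ℂ) + (f₂ : ℍ → ℂ)) (g : ℍ → ℂ) = _
  exact petFun_add_left N (measurable_cuspForm N f₁) (measurable_cuspForm N f₂)
    (measurable_cuspForm N g) (isPetBdd_cuspForm f₁) (isPetBdd_cuspForm f₂) (isPetBdd_cuspForm g)

theorem pet_add_right (f g₁ g₂ : CuspForm (Gamma0 N) 2) :
    pet N f (g₁ + g₂) = pet N f g₁ + pet N f g₂ := by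
  change petFun N (f : ℍ → ℂ) ((g₁ : ℍ → ℂ) + (g₂ : ℍ → ℂ)) = _
  exact petFun_add_right N (measurable_cuspForm N f) (measurable_cuspForm N g₁)
    (measurable_cuspForm N g₂) (isPetBdd_cuspForm f) (isPetBdd_cuspForm g₁) (isPetBdd_cuspForm g₂)

/-- Invariance of the Petersson square of a cusp form. -/
theorem petersson_self_smul (f : CuspForm (Gamma0 N) 2) (γ : Gamma0 N) (τ : ℍ) :
    petersson 2 f f (mapGL ℝ (γ : SL(2, ℤ)) • τ) = petersson 2 f f τ :=
  SlashInvariantFormClass.petersson_smul (Γ := (Gamma0 N : Subgroup (GL (Fin 2) ℝ)))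
    (Subgroup.mem_map_of_mem (mapGL ℝ) γ.2)

/-- **Positive definiteness.** -/
theorem eq_zero_of_pet_self (f : CuspForm (Gamma0 N) 2) (h : pet N f f = 0) : f = 0 := by
  -- the real integrand
  set Φ : ℍ → ℝ := fun τ => ‖f τ‖ ^ 2 * τ.im ^ (2 : ℤ) with hΦ
  have hΦ0 : ∀ τ, 0 ≤ Φ τ := fun τ => by
    have := τ.im_pos
    positivity
  have hpet : ∀ τ, petersson 2 f f τ = ((Φ τ : ℝ) : ℂ) := fun τ => petersson_self 2 f τ
  have hint : Integrable (fun τ => (w0 N τ : ℂ) * petersson 2 f f τ) :=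
    integrable_petFun N (measurable_cuspForm N f) (measurable_cuspForm N f)
      (isPetBdd_cuspForm f) (isPetBdd_cuspForm f)
  have hreal : pet N f f = ((∫ τ, w0 N τ * Φ τ : ℝ) : ℂ) := by
    unfold pet petFun
    rw [← integral_complex_ofReal]
    refine integral_congr_ae (Filter.Eventually.of_forall fun τ => ?_)
    simp only [hpet]
    push_cast
    rfl
  have hintR : Integrable (fun τ => w0 N τ * Φ τ) := by
    have h2 : (fun τ => w0 N τ * Φ τ) = fun τ => ((w0 N τ : ℂ) * petersson 2 f f τ).re := by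
      funext τ
      rw [hpet, ← Complex.ofReal_mul, Complex.ofReal_re]
    rw [h2]
    exact hint.re
  rw [hreal, Complex.ofReal_eq_zero] at h
  have hae : (fun τ => w0 N τ * Φ τ) =ᵐ[volume] 0 :=
    (integral_eq_zero_iff_of_nonneg (fun τ => mul_nonneg (w0_nonneg N τ) (hΦ0 τ)) hintR).mp h
  -- move the null set around by the countable group
  have hall : ∀ᵐ τ : ℍ, ∀ γ : Gamma0 N,
      w0 N (mapGL ℝ (γ : SL(2, ℤ)) • τ) * Φ (mapGL ℝ (γ : SL(2, ℤ)) • τ) = 0 := by
    have : Countable (Gamma0 N) := Subtype.countable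
    rw [ae_all_iff]
    intro γ
    exact (measurePreserving_smul (mapGL ℝ (γ : SL(2, ℤ)))
      (volume : Measure ℍ)).quasiMeasurePreserving.ae hae
  have hΦinv : ∀ (γ : Gamma0 N) (τ : ℍ), Φ (mapGL ℝ (γ : SL(2, ℤ)) • τ) = Φ τ := by
    intro γ τ
    have := petersson_self_smul N f γ τ
    rw [hpet, hpet] at this
    exact_mod_cast this
  have hf0 : (f : ℍ → ℂ) =ᵐ[volume] 0 := by
    filter_upwards [hall] with τ hτ
    have h1 : HasSum (fun γ : Gamma0 N => w0 N (mapGL ℝ (γ : SL(2, ℤ)) • τ) * Φ τ) (1 * Φ τ) :=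
      (hasSum_w0 N τ).mul_right (Φ τ)
    have h2 : (fun γ : Gamma0 N => w0 N (mapGL ℝ (γ : SL(2, ℤ)) • τ) * Φ τ) = fun _ => 0 := by
      funext γ
      rw [← hΦinv γ τ]
      exact hτ γ
    rw [h2] at h1
    have h3 : (1 : ℝ) * Φ τ = 0 := h1.unique hasSum_zero
    rw [one_mul] at h3
    have h4 : ‖f τ‖ ^ 2 = 0 := by
      rcases mul_eq_zero.mp h3 with h5 | h5
      · exact h5
      · exact absurd h5 (zpow_pos τ.im_pos 2).ne'
    simpa using h4
  have hcont : Continuous (f : ℍ → ℂ) := (CuspFormClass.holo f).continuous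
  have := (hcont.ae_eq_iff_eq volume continuous_zero).mp hf0
  exact DFunLike.coe_injective this

end

end Fermat.Agent.Pet
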