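/-
(R) Petersson reducedness — part (A): the Hecke operators `T_ℓ` (`ℓ ∤ N`) are self-adjoint for the
Petersson pairing of `Pet/Form.lean`.

Proof by one rearrangement: with `Gd δ := ∫ w(τ) w(δτ) petersson(f, g∣δ)(τ)`, inserting the
partition of unity gives `pet f (T g) = ∑_{(x,γ)} Gd (γ β_x)` and
`pet (T f) g = ∑_{(x,γ)} Gd ((γ β_x)⁻¹)`, and `(x,γ) ↦ (x',γ')` with `γ' β_{x'} = ℓ (γ β_x)⁻¹` is an
involution of `P¹(F_ℓ) × Γ₀(N)`.
-/
import Mathlib
import Fermat.Prelude.Def_CuspForm_HeckeAlgebra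
import Fermat.Prelude.Sol.S_ModularForm_heckeT_slash_eq_self_of_mem_Gamma0
import Fermat.Agent.ESJ.ParHom.HeckeGamma0
import Fermat.Agent.Pet.Form

set_option autoImplicit false
set_option linter.unusedSectionVars false

open MeasureTheory UpperHalfPlane ModularGroup Matrix.SpecialLinearGroup CongruenceSubgroup
open scoped MatrixGroups Modular ENNReal ModularForm ComplexConjugate
open Fermat.Agent.ESJ.ParHom ModularForm

namespace Fermat.Agent.Pet

noncomputable section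

/-! ### Scalar matrices act trivially in weight 2 -/

/-- The scalar matrix `c • 1` in `GL₂(ℝ)`. -/
def scal (c : ℝ) (hc : c ≠ 0) : GL (Fin 2) ℝ :=
  Matrix.GeneralLinearGroup.scalar (Fin 2) (Units.mk0 c hc)

theorem scal_val (c : ℝ) (hc : c ≠ 0) :
    ((scal c hc : GL (Fin 2) ℝ) : Matrix (Fin 2) (Fin 2) ℝ) = !![c, 0; 0, c] := by
  ext i j
  fin_cases i <;> fin_cases j <;> simp [scal, Matrix.GeneralLinearGroup.scalar]

theorem scal_comm (c : ℝ) (hc : c ≠ 0) (g : GL (Fin 2) ℝ) : scal c hc * g = g * scal c hc := by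
  have h : scal c hc ∈ Subgroup.center (GL (Fin 2) ℝ) := by
    rw [Matrix.GeneralLinearGroup.center_eq_range_scalar]
    exact ⟨_, rfl⟩
  exact (Subgroup.mem_center_iff.mp h g).symm

theorem det_scal (c : ℝ) (hc : c ≠ 0) : ((scal c hc).det : ℝ) = c * c := by
  rw [Matrix.GeneralLinearGroup.val_det_apply, scal_val, Matrix.det_fin_two_of]
  ring

theorem det_scal_pos (c : ℝ) (hc : c ≠ 0) : 0 < ((scal c hc).det : ℝ) := by
  rw [det_scal]; exact mul_self_pos.mpr hc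

theorem scal_smul (c : ℝ) (hc : c ≠ 0) (τ : ℍ) : scal c hc • τ = τ := by
  apply UpperHalfPlane.ext
  rw [UpperHalfPlane.coe_smul_of_det_pos (det_scal_pos c hc)]
  have hc' : (c : ℂ) ≠ 0 := by exact_mod_cast hc
  simp [UpperHalfPlane.num, UpperHalfPlane.denom, scal_val, hc']

theorem slash_scal (f : ℍ → ℂ) (c : ℝ) (hc : c ≠ 0) : f ∣[(2 : ℤ)] scal c hc = f := by
  funext τ
  have hc' : (c : ℂ) ≠ 0 := by exact_mod_cast hc
  rw [ModularForm.slash_apply, scal_smul, UpperHalfPlane.σ, if_pos (det_scal_pos c hc), det_scal]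
  simp only [ContinuousAlgEquiv.refl_apply, UpperHalfPlane.denom, scal_val]
  simp only [Matrix.of_apply, Matrix.cons_val', Matrix.cons_val_zero, Matrix.cons_val_one,
    Matrix.empty_val', Matrix.cons_val_fin_one]
  rw [abs_mul_self]
  push_cast
  rw [zero_mul, zero_add, zpow_one, zpow_neg, mul_assoc]
  have h2 : ((c : ℂ) * c) * ((c : ℂ) ^ (2 : ℤ))⁻¹ = 1 := by
    rw [zpow_two]
    exact mul_inv_cancel₀ (mul_ne_zero hc' hc')
  rw [h2, mul_one]

/-! ### The analytic core -/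

theorem petersson_two_slash_pos (f f' : ℍ → ℂ) (β : GL (Fin 2) ℝ)
    (hβ : 0 < (Matrix.GeneralLinearGroup.det β : ℝ)) (τ : ℍ) :
    petersson 2 (f ∣[(2 : ℤ)] β) (f' ∣[(2 : ℤ)] β) τ = petersson 2 f f' (β • τ) := by
  rw [petersson_slash, UpperHalfPlane.σ, if_pos hβ]
  simp

theorem det_mapGL_pos (γ : SL(2, ℤ)) :
    0 < (Matrix.GeneralLinearGroup.det (mapGL ℝ γ) : ℝ) := by
  simp

variable (N : ℕ) [NeZero N]

/-- **Unfolding.** Inserting the partition of unity under an integral. -/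
theorem hasSum_integral_w0 {u : ℍ → ℂ} (hu : Integrable u) {φ : ℍ → ℍ} (hφ : Measurable φ) :
    HasSum (fun γ : Gamma0 N => ∫ τ, (w0 N (mapGL ℝ (γ : SL(2, ℤ)) • φ τ) : ℂ) * u τ)
      (∫ τ, u τ) := by
  have : Countable (Gamma0 N) := Subtype.countable
  refine hasSum_integral_of_dominated_convergence
    (fun (γ : Gamma0 N) τ => w0 N (mapGL ℝ (γ : SL(2, ℤ)) • φ τ) * ‖u τ‖) ?_ ?_ ?_ ?_ ?_
  · intro γ
    exact ((Complex.measurable_ofReal.comp ((measurable_w0 N).comp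
      ((measurable_const_smul _).comp hφ))).aestronglyMeasurable).mul hu.aestronglyMeasurable
  · intro γ
    exact Filter.Eventually.of_forall fun τ => by
      rw [norm_mul, Complex.norm_real, Real.norm_of_nonneg (w0_nonneg N _)]
  · exact Filter.Eventually.of_forall fun τ => ((hasSum_w0 N (φ τ)).mul_right ‖u τ‖).summable
  · have h : (fun τ => ∑' γ : Gamma0 N, w0 N (mapGL ℝ (γ : SL(2, ℤ)) • φ τ) * ‖u τ‖) =
        fun τ => ‖u τ‖ := by
      funext τ
      rw [((hasSum_w0 N (φ τ)).mul_right ‖u τ‖).tsum_eq, one_mul]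
    rw [h]
    exact hu.norm
  · exact Filter.Eventually.of_forall fun τ => by
      have h := (Complex.hasSum_ofReal.mpr (hasSum_w0 N (φ τ))).mul_right (u τ)
      simpa using h

/-- The doubly weighted integral attached to `δ ∈ GL₂(ℝ)`. -/
def Gd (f g : ℍ → ℂ) (δ : GL (Fin 2) ℝ) : ℂ :=
  ∫ τ, (w0 N τ : ℂ) * (w0 N (δ • τ) : ℂ) * petersson 2 f (g ∣[(2 : ℤ)] δ) τ

theorem hasSum_Gd_left {f g : ℍ → ℂ} (hf : Measurable f) (hg : Measurable g)
    (hfb : IsPetBdd f) (hgb : IsPetBdd g)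
    (hginv : ∀ γ : Gamma0 N, g ∣[(2 : ℤ)] (mapGL ℝ (γ : SL(2, ℤ))) = g) (β : GL (Fin 2) ℝ) :
    HasSum (fun γ : Gamma0 N => Gd N f g (mapGL ℝ (γ : SL(2, ℤ)) * β))
      (petFun N f (g ∣[(2 : ℤ)] β)) := by
  have hu : Integrable (fun τ => (w0 N τ : ℂ) * petersson 2 f (g ∣[(2 : ℤ)] β) τ) :=
    integrable_petFun N hf (measurable_slash hg 2 β) hfb (hgb.slash β)
  have h := hasSum_integral_w0 N hu (φ := fun τ => β • τ) (measurable_const_smul β)
  have hfun : (fun γ : Gamma0 N => Gd N f g (mapGL ℝ (γ : SL(2, ℤ)) * β)) =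
      fun γ : Gamma0 N => ∫ τ, (w0 N (mapGL ℝ (γ : SL(2, ℤ)) • β • τ) : ℂ) *
        ((w0 N τ : ℂ) * petersson 2 f (g ∣[(2 : ℤ)] β) τ) := by
    funext γ
    unfold Gd
    refine integral_congr_ae (Filter.Eventually.of_forall fun τ => ?_)
    simp only [mul_smul, SlashAction.slash_mul, hginv]
    ring
  rw [hfun]
  exact h

theorem hasSum_Gd_right {f g : ℍ → ℂ} (hf : Measurable f) (hg : Measurable g)
    (hfb : IsPetBdd f) (hgb : IsPetBdd g)
    (hfinv : ∀ γ : Gamma0 N, f ∣[(2 : ℤ)] (mapGL ℝ (γ : SL(2, ℤ))) = f)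
    (β : GL (Fin 2) ℝ) (hβ : 0 < (Matrix.GeneralLinearGroup.det β : ℝ)) :
    HasSum (fun γ : Gamma0 N => Gd N f g ((mapGL ℝ (γ : SL(2, ℤ)) * β)⁻¹))
      (petFun N (f ∣[(2 : ℤ)] β) g) := by
  set h : ℍ → ℂ := g ∣[(2 : ℤ)] β⁻¹ with hh
  have hhm : Measurable h := measurable_slash hg 2 β⁻¹
  obtain ⟨C, hC⟩ := hfb.exists_bound (hgb.slash β⁻¹)
  have hu : Integrable (fun σ => (w0 N (β⁻¹ • σ) : ℂ) * petersson 2 f h σ) :=
    integrable_weight_mul (integrable_w0_smul N β⁻¹) (measurable_petersson hf hhm 2) hC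
  have hsum := hasSum_integral_w0 N hu (φ := fun τ => τ) measurable_id
  have hfun : (fun γ : Gamma0 N => Gd N f g ((mapGL ℝ (γ : SL(2, ℤ)) * β)⁻¹)) =
      fun γ : Gamma0 N => ∫ σ, (w0 N (mapGL ℝ (γ : SL(2, ℤ)) • σ) : ℂ) *
        ((w0 N (β⁻¹ • σ) : ℂ) * petersson 2 f h σ) := by
    funext γ
    unfold Gd
    rw [← integral_smul_eq_self (μ := (volume : Measure ℍ)) _ (g := mapGL ℝ (γ : SL(2, ℤ)))]
    refine integral_congr_ae (Filter.Eventually.of_forall fun σ => ?_)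
    have e1 : (mapGL ℝ (γ : SL(2, ℤ)) * β)⁻¹ • mapGL ℝ (γ : SL(2, ℤ)) • σ = β⁻¹ • σ := by
      rw [mul_inv_rev, mul_smul, inv_smul_smul]
    have e2 : petersson 2 f (g ∣[(2 : ℤ)] (mapGL ℝ (γ : SL(2, ℤ)) * β)⁻¹)
        (mapGL ℝ (γ : SL(2, ℤ)) • σ) = petersson 2 f h σ := by
      rw [← petersson_two_slash_pos _ _ _ (det_mapGL_pos (γ : SL(2, ℤ))), hfinv,
        ← SlashAction.slash_mul, mul_inv_rev, inv_mul_cancel_right]
    simp only [e1, e2]
    ring
  rw [hfun]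
  have hval : ∫ σ, (w0 N (β⁻¹ • σ) : ℂ) * petersson 2 f h σ = petFun N (f ∣[(2 : ℤ)] β) g := by
    unfold petFun
    rw [← integral_smul_eq_self (μ := (volume : Measure ℍ)) _ (g := β)]
    refine integral_congr_ae (Filter.Eventually.of_forall fun τ => ?_)
    have e3 : petersson 2 f h (β • τ) = petersson 2 (f ∣[(2 : ℤ)] β) g τ := by
      rw [← petersson_two_slash_pos _ _ _ hβ, hh, ← SlashAction.slash_mul, inv_mul_cancel,
        SlashAction.slash_one]
    simp only [inv_smul_smul, e3]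
  rw [← hval]
  exact hsum

/-! ### Abstract coset combinatorics: the adjugate involution on `ι × Γ` -/

section Abstract

variable {Γ G : Type*} [Group Γ] [Group G] {j : Γ →* G} {ι : Type*} {a : ι → G}

theorem pair_unique (h : IsHeckeSystem j a) {p q : ι × Γ}
    (e : j p.2 * a p.1 = j q.2 * a q.1) : p = q := by
  have e1 : a p.1 = j (p.2⁻¹ * q.2) * a q.1 := by
    rw [map_mul, map_inv, mul_assoc, ← e, inv_mul_cancel_left]
  have h1 : p.1 = q.1 := h.sep _ _ _ e1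
  have h2 : j p.2 = j q.2 := by
    rw [h1] at e
    exact mul_right_cancel e
  exact Prod.ext h1 (h.inj h2)

theorem exists_adjPair (h : IsHeckeSystem j a) (c : G) (s : ι → ι) (t : ι → Γ)
    (hst : ∀ i, c * (a i)⁻¹ = j (t i) * a (s i)) (p : ι × Γ) :
    ∃ q : ι × Γ, j q.2 * a q.1 = c * (j p.2 * a p.1)⁻¹ := by
  obtain ⟨i', γ', e⟩ := h.stab (p.2)⁻¹ (s p.1)
  refine ⟨(i', t p.1 * γ'), ?_⟩
  rw [mul_inv_rev, ← mul_assoc, hst, map_mul, mul_assoc, mul_assoc, ← e, map_inv]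

/-- The adjugate map on pairs. -/
def adjPair (h : IsHeckeSystem j a) (c : G) (s : ι → ι) (t : ι → Γ)
    (hst : ∀ i, c * (a i)⁻¹ = j (t i) * a (s i)) (p : ι × Γ) : ι × Γ :=
  (exists_adjPair h c s t hst p).choose

theorem adjPair_spec (h : IsHeckeSystem j a) (c : G) (s : ι → ι) (t : ι → Γ)
    (hst : ∀ i, c * (a i)⁻¹ = j (t i) * a (s i)) (p : ι × Γ) :
    j (adjPair h c s t hst p).2 * a (adjPair h c s t hst p).1 = c * (j p.2 * a p.1)⁻¹ :=
  (exists_adjPair h c s t hst p).choose_spec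

theorem adjPair_involutive (h : IsHeckeSystem j a) (c : G) (hc : ∀ g, c * g = g * c)
    (s : ι → ι) (t : ι → Γ) (hst : ∀ i, c * (a i)⁻¹ = j (t i) * a (s i)) :
    Function.Involutive (adjPair h c s t hst) := by
  intro p
  apply pair_unique h
  rw [adjPair_spec, adjPair_spec, mul_inv_rev, inv_inv, ← mul_assoc, hc, mul_assoc,
    mul_inv_cancel, mul_one]

end Abstract

/-! ### The concrete data for `T_ℓ` on `Γ₀(N)` -/

variable {ℓ : ℕ} [Fact ℓ.Prime]

theorem ell_ne_zero_real : ((ℓ : ℕ) : ℝ) ≠ 0 :=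
  Nat.cast_ne_zero.mpr (Fact.out : ℓ.Prime).ne_zero

/-- The unipotent matrix `[[1, -n], [0, 1]]`. -/
def unipSL (n : ℤ) : SL(2, ℤ) := ⟨!![1, -n; 0, 1], by rw [Matrix.det_fin_two_of]; ring⟩

theorem unipSL_mem (n : ℤ) : unipSL n ∈ Gamma0 N := by
  rw [Gamma0_mem]
  simp [unipSL]

/-- The unipotent element `[[1, -n], [0, 1]]` of `Γ₀(N)`. -/
def unip (n : ℤ) : Gamma0 N := ⟨unipSL n, unipSL_mem N n⟩

theorem unipSL_00 (n : ℤ) : (unipSL n) 0 0 = 1 := rfl
theorem unipSL_01 (n : ℤ) : (unipSL n) 0 1 = -n := rfl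
theorem unipSL_10 (n : ℤ) : (unipSL n) 1 0 = 0 := rfl
theorem unipSL_11 (n : ℤ) : (unipSL n) 1 1 = 1 := rfl

/-- `t x ∈ Γ₀(N)`: the left factor of the adjugate of the representative `x`. -/
def tAdj (x : OnePoint (ZMod ℓ)) : Gamma0 N :=
  x.elim 1 (fun j => unip N (j.val : ℤ))

/-- `s x`: the class of the adjugate of the representative `x`. -/
def sAdj (x : OnePoint (ZMod ℓ)) : OnePoint (ZMod ℓ) :=
  x.elim (((0 : ZMod ℓ) : OnePoint (ZMod ℓ))) (fun _ => OnePoint.infty)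

theorem scal_mul_inv_tRep (x : OnePoint (ZMod ℓ)) :
    scal (ℓ : ℝ) ell_ne_zero_real * (tRep ℓ x)⁻¹ =
      jSub (Gamma0 N) (tAdj N x) * tRep ℓ (sAdj x) := by
  have hℓ : ℓ ≠ 0 := (Fact.out : ℓ.Prime).ne_zero
  rw [mul_inv_eq_iff_eq_mul]
  induction x using OnePoint.rec with
  | infty =>
    ext i k
    fin_cases i <;> fin_cases k <;>
      simp [tAdj, sAdj, scal_val, val_heckeMatrix hℓ, val_heckeDiagMatrix hℓ, Matrix.mul_apply,
        Fin.sum_univ_two, OnePoint.elim_infty]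
  | coe j =>
    ext i k
    fin_cases i <;> fin_cases k <;>
      simp [tAdj, sAdj, unip, unipSL_00, unipSL_01, unipSL_10, unipSL_11, scal_val, val_heckeMatrix hℓ,
        val_heckeDiagMatrix hℓ, Matrix.mul_apply, Fin.sum_univ_two, OnePoint.elim_some] <;>
      ring


/-! ### Assembly -/

theorem Gd_scal_mul (f g : ℍ → ℂ) (c : ℝ) (hc : c ≠ 0) (δ : GL (Fin 2) ℝ) :
    Gd N f g (scal c hc * δ) = Gd N f g δ := by
  unfold Gd
  simp only [mul_smul, scal_smul, SlashAction.slash_mul, slash_scal]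

theorem summable_prod_of_fintype {X Γ : Type*} [Fintype X] {A : X × Γ → ℂ}
    (h : ∀ x, Summable fun γ => A (x, γ)) : Summable A := by
  apply Summable.of_norm
  rw [summable_prod_of_nonneg (fun p => norm_nonneg _)]
  exact ⟨fun x => (h x).norm, (hasSum_fintype _).summable⟩

theorem petFun_sum_right {X : Type*} [Fintype X] {f : ℍ → ℂ} {h : X → ℍ → ℂ}
    (hf : Measurable f) (hh : ∀ x, Measurable (h x)) (hfb : IsPetBdd f)
    (hhb : ∀ x, IsPetBdd (h x)) :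
    petFun N f (∑ x, h x) = ∑ x, petFun N f (h x) := by
  unfold petFun
  rw [← integral_finsetSum _ (fun x _ => integrable_petFun N hf (hh x) hfb (hhb x))]
  refine integral_congr_ae (Filter.Eventually.of_forall fun τ => ?_)
  simp only [petersson, Finset.sum_apply, Finset.mul_sum, Finset.sum_mul]

theorem petFun_sum_left {X : Type*} [Fintype X] {g : ℍ → ℂ} {h : X → ℍ → ℂ}
    (hg : Measurable g) (hh : ∀ x, Measurable (h x)) (hgb : IsPetBdd g)
    (hhb : ∀ x, IsPetBdd (h x)) :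
    petFun N (∑ x, h x) g = ∑ x, petFun N (h x) g := by
  unfold petFun
  rw [← integral_finsetSum _ (fun x _ => integrable_petFun N (hh x) hg (hhb x) hgb)]
  refine integral_congr_ae (Filter.Eventually.of_forall fun τ => ?_)
  simp only [petersson, Finset.sum_apply, map_sum, Finset.mul_sum, Finset.sum_mul]

theorem cusp_slash (f : CuspForm (Gamma0 N) 2) (γ : Gamma0 N) :
    (f : ℍ → ℂ) ∣[(2 : ℤ)] (mapGL ℝ (γ : SL(2, ℤ))) = f :=
  SlashInvariantFormClass.slash_action_eq f _ (Subgroup.mem_map_of_mem (mapGL ℝ) γ.2)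

theorem det_tRep_pos (x : OnePoint (ZMod ℓ)) :
    0 < (Matrix.GeneralLinearGroup.det (tRep ℓ x) : ℝ) := by
  induction x using OnePoint.rec with
  | infty => exact det_heckeDiagMatrix_pos ℓ
  | coe j => exact det_heckeMatrix_pos ℓ j.val

omit [Fact ℓ.Prime] in
/-- **Self-adjointness of `T_ℓ`, `ℓ ∤ N`, for the Petersson pairing.** -/
theorem pet_heckeTLin (hℓ : ℓ.Prime) (hℓN : ¬ ℓ ∣ N) (f g : CuspForm (Gamma0 N) 2) :
    pet N (CuspForm.heckeTLin 2 hℓ hℓN f) g = pet N f (CuspForm.heckeTLin 2 hℓ hℓN g) := by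
  have : Fact ℓ.Prime := ⟨hℓ⟩
  have hsys := isHeckeSystem_T N hℓN
  have hcoe : ∀ F : CuspForm (Gamma0 N) 2, (⇑(CuspForm.heckeTLin 2 hℓ hℓN F) : ℍ → ℂ) =
      ∑ x : OnePoint (ZMod ℓ), (F : ℍ → ℂ) ∣[(2 : ℤ)] tRep ℓ x := fun F => by
    rw [CuspForm.coe_heckeTLin_apply]
    exact P2MW.S_ModularForm_heckeT_slash_eq_self_of_mem_Gamma0.ModularForm.HeckeSlashInvariance.heckeT_eq_sum_onePoint
      2 _
  have hfm := measurable_cuspForm N f
  have hgm := measurable_cuspForm N g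
  have hfb := isPetBdd_cuspForm f
  have hgb := isPetBdd_cuspForm g
  unfold pet
  rw [hcoe f, hcoe g,
    petFun_sum_left N hgm (fun x => measurable_slash hfm 2 _) hgb (fun x => hfb.slash _),
    petFun_sum_right N hfm (fun x => measurable_slash hgm 2 _) hfb (fun x => hgb.slash _)]
  -- the two families
  set A₁ : OnePoint (ZMod ℓ) × Gamma0 N → ℂ :=
    fun p => Gd N f g (jSub (Gamma0 N) p.2 * tRep ℓ p.1) with hA₁
  have h₁ : ∀ x, HasSum (fun γ : Gamma0 N => A₁ (x, γ))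
      (petFun N f ((g : ℍ → ℂ) ∣[(2 : ℤ)] tRep ℓ x)) := fun x =>
    hasSum_Gd_left N hfm hgm hfb hgb (cusp_slash N g) (tRep ℓ x)
  have h₂ : ∀ x, HasSum (fun γ : Gamma0 N => Gd N f g ((jSub (Gamma0 N) γ * tRep ℓ x)⁻¹))
      (petFun N ((f : ℍ → ℂ) ∣[(2 : ℤ)] tRep ℓ x) g) := fun x =>
    hasSum_Gd_right N hfm hgm hfb hgb (cusp_slash N f) (tRep ℓ x) (det_tRep_pos x)
  set e := adjPair hsys (scal (ℓ : ℝ) ell_ne_zero_real) sAdj (tAdj N) (scal_mul_inv_tRep N)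
    with he_def
  have he : Function.Involutive e :=
    adjPair_involutive hsys _ (scal_comm _ _) _ _ _
  have hA : ∀ p : OnePoint (ZMod ℓ) × Gamma0 N,
      Gd N f g ((jSub (Gamma0 N) p.2 * tRep ℓ p.1)⁻¹) = A₁ (e p) := fun p => by
    rw [hA₁]
    show _ = Gd N f g (jSub (Gamma0 N) (e p).2 * tRep ℓ (e p).1)
    rw [he_def, adjPair_spec, Gd_scal_mul]
  have hS₁ : Summable A₁ := summable_prod_of_fintype fun x => (h₁ x).summable
  have hS₂ : Summable (A₁ ∘ e) := (he.toPerm.summable_iff).mpr hS₁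
  have h₂' : ∀ x, HasSum (fun γ : Gamma0 N => (A₁ ∘ e) (x, γ))
      (petFun N ((f : ℍ → ℂ) ∣[(2 : ℤ)] tRep ℓ x) g) := fun x => by
    have : (fun γ : Gamma0 N => (A₁ ∘ e) (x, γ)) =
        fun γ : Gamma0 N => Gd N f g ((jSub (Gamma0 N) γ * tRep ℓ x)⁻¹) := by
      funext γ
      exact (hA (x, γ)).symm
    rw [this]
    exact h₂ x
  calc ∑ x, petFun N ((f : ℍ → ℂ) ∣[(2 : ℤ)] tRep ℓ x) g
      = ∑ x, ∑' γ : Gamma0 N, (A₁ ∘ e) (x, γ) :=
        Finset.sum_congr rfl fun x _ => (h₂' x).tsum_eq.symm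
    _ = ∑' p, (A₁ ∘ e) p := by
        rw [hS₂.tsum_prod' (fun x => (h₂' x).summable), tsum_fintype]
    _ = ∑' p, A₁ p := he.toPerm.tsum_eq A₁
    _ = ∑ x, ∑' γ : Gamma0 N, A₁ (x, γ) := by
        rw [hS₁.tsum_prod' (fun x => (h₁ x).summable), tsum_fintype]
    _ = ∑ x, petFun N f ((g : ℍ → ℂ) ∣[(2 : ℤ)] tRep ℓ x) :=
        Finset.sum_congr rfl fun x _ => (h₁ x).tsum_eq

end

end Fermat.Agent.Pet
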