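/-
(R) Petersson reducedness — part (Z): the anemic Hecke algebra of weight 2 and level `Γ₀(N)`
(generated by the `T_ℓ`, `ℓ ∤ N`, `ℓ ∉ S`, where `S` contains all primes dividing `N`) is reduced.
-/
import Mathlib
import Fermat.Prelude.Def_CuspForm_HeckeAlgebra
import Fermat.Agent.Pet.Adjoint

set_option autoImplicit false
set_option linter.unusedSectionVars false

open CongruenceSubgroup
open scoped MatrixGroups

namespace Fermat.Agent.Pet

noncomputable section

variable (N : ℕ) [NeZero N]

/-- `f ↦ pet f g` as an additive map. -/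
def petL (g : CuspForm (Gamma0 N) 2) : CuspForm (Gamma0 N) 2 →+ ℂ :=
  AddMonoidHom.mk' (fun f => pet N f g) fun f₁ f₂ => pet_add_left N f₁ f₂ g

/-- `g ↦ pet f g` as an additive map. -/
def petR (f : CuspForm (Gamma0 N) 2) : CuspForm (Gamma0 N) 2 →+ ℂ :=
  AddMonoidHom.mk' (fun g => pet N f g) fun g₁ g₂ => pet_add_right N f g₁ g₂

theorem pet_zero_right (f : CuspForm (Gamma0 N) 2) : pet N f 0 = 0 := map_zero (petR N f)

theorem pet_zero_left (g : CuspForm (Gamma0 N) 2) : pet N 0 g = 0 := map_zero (petL N g)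

theorem pet_zsmul_left (n : ℤ) (f g : CuspForm (Gamma0 N) 2) :
    pet N (n • f) g = n • pet N f g := map_zsmul (petL N g) n f

theorem pet_zsmul_right (n : ℤ) (f g : CuspForm (Gamma0 N) 2) :
    pet N f (n • g) = n • pet N f g := map_zsmul (petR N f) n g

/-- Self-adjoint endomorphisms of `S₂(Γ₀(N))` for the Petersson pairing. -/
def IsSelfAdj (x : Module.End ℂ (CuspForm (Gamma0 N) 2)) : Prop :=
  ∀ f g : CuspForm (Gamma0 N) 2, pet N (x f) g = pet N f (x g)

/-- Every element of the anemic Hecke algebra is self-adjoint. -/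
theorem isSelfAdj_of_mem_heckeAlgebra (S : Set ℕ) (hNS : ∀ q : ℕ, q.Prime → q ∣ N → q ∈ S)
    {x : Module.End ℂ (CuspForm (Gamma0 N) 2)} (hx : x ∈ CuspForm.heckeAlgebra N 2 S) :
    IsSelfAdj N x := by
  unfold CuspForm.heckeAlgebra at hx
  induction hx using Algebra.adjoin_induction with
  | mem x hx =>
    rcases hx with ⟨ℓ, hℓ, hℓN, -, rfl⟩ | ⟨q, hqN, hq, hqS, rfl⟩
    · exact fun f g => pet_heckeTLin N hℓ hℓN f g
    · exact absurd (hNS q hq hqN) hqS
  | algebraMap r =>
    intro f g
    rw [Algebra.algebraMap_eq_smul_one, LinearMap.smul_apply, LinearMap.smul_apply,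
      Module.End.one_apply, Module.End.one_apply, pet_zsmul_left, pet_zsmul_right]
  | add x y hx hy ihx ihy =>
    intro f g
    rw [LinearMap.add_apply, LinearMap.add_apply, pet_add_left, pet_add_right, ihx f g, ihy f g]
  | mul x y hx hy ihx ihy =>
    intro f g
    have hcomm : x * y = y * x := by
      have := mul_comm (⟨x, hx⟩ : CuspForm.heckeAlgebra N 2 S) ⟨y, hy⟩
      exact congrArg Subtype.val this
    rw [Module.End.mul_apply, ihx, ihy, ← Module.End.mul_apply, ← hcomm]

/-- **(R)** The anemic Hecke algebra of weight 2 and level `Γ₀(N)` is reduced. -/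
theorem isReduced_heckeAlgebra (S : Set ℕ) (hNS : ∀ q : ℕ, q.Prime → q ∣ N → q ∈ S) :
    IsReduced (CuspForm.heckeAlgebra N 2 S) := by
  rw [isReduced_iff_pow_one_lt 2 one_lt_two]
  intro t ht
  have hself := isSelfAdj_of_mem_heckeAlgebra N S hNS t.2
  have hsq : (t : Module.End ℂ (CuspForm (Gamma0 N) 2)) * t = 0 := by
    have := congrArg Subtype.val ht
    simpa [pow_two] using this
  apply Subtype.ext
  apply LinearMap.ext
  intro f
  apply eq_zero_of_pet_self N
  rw [hself f (t.1 f), ← Module.End.mul_apply, hsq, LinearMap.zero_apply]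
  exact pet_zero_right N _

end

end Fermat.Agent.Pet
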