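/-
(R) at the level of a Hecke–Galois datum: for `H : CuspForm.HeckeGaloisRepDatum N S 𝒪 θ T` with
`𝒪` of characteristic zero and `S` containing the primes dividing `N`, the ring `T` is reduced.

* `exists_separable_aeval_eq_zero` (Mathlib only): an integral element of a reduced torsion-free
  commutative ring is a root of an integer polynomial which is separable over `ℚ`.
* `isReduced_of_adjoin_range` (Mathlib only): the abstract engine.
* `isReduced_of_datum`, and the forms `eq_zero_of_mem_minimalPrimes`,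
  `exists_minimalPrime_notMem`, `eq_bot_of_le_minimalPrimes` consumed by the S33 glue.
-/
import Mathlib
import Fermat.Prelude.Def_CuspForm_HeckeGaloisRepDatum
import Fermat.Agent.Pet.Reduced
import Fermat.Agent.S22

set_option autoImplicit false

open Polynomial TensorProduct

namespace Fermat.Agent.Pet

/-- An integral element of a reduced, torsion-free commutative ring is a root of an integer
polynomial which is separable over `ℚ`. -/
theorem exists_separable_aeval_eq_zero {R : Type*} [CommRing R] [IsReduced R]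
    [IsAddTorsionFree R] {x : R} (hx : IsIntegral ℤ x) :
    ∃ Q : ℤ[X], (Q.map (Int.castRingHom ℚ)).Separable ∧ aeval x Q = 0 := by
  classical
  obtain ⟨P, hPmonic, hP⟩ := hx
  have hP' : aeval x P = 0 := hP
  set Pq : ℚ[X] := P.map (algebraMap ℤ ℚ) with hPq
  have hPq0 : Pq ≠ 0 := (hPmonic.map _).ne_zero
  set m : ℚ[X] := UniqueFactorizationMonoid.radical Pq with hm
  have hsq : Squarefree m := UniqueFactorizationMonoid.squarefree_radical
  obtain ⟨n, s, hs⟩ := UniqueFactorizationMonoid.exists_dvd_radical_self_pow hPq0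
  obtain ⟨b, hbM, hb⟩ := IsLocalization.integerNormalization_spec (nonZeroDivisors ℤ) m
  obtain ⟨c, hcM, hc⟩ := IsLocalization.integerNormalization_spec (nonZeroDivisors ℤ) s
  set Q : ℤ[X] := IsLocalization.integerNormalization (nonZeroDivisors ℤ) m with hQ
  set s' : ℤ[X] := IsLocalization.integerNormalization (nonZeroDivisors ℤ) s with hs'
  have hb0 : (b : ℤ) ≠ 0 := nonZeroDivisors.ne_zero hbM
  have hc0 : (c : ℤ) ≠ 0 := nonZeroDivisors.ne_zero hcM
  have hb' : Q.map (algebraMap ℤ ℚ) = C (b : ℚ) * m := by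
    rw [hb, zsmul_eq_mul]; simp
  have hc' : s'.map (algebraMap ℤ ℚ) = C (c : ℚ) * s := by
    rw [hc, zsmul_eq_mul]; simp
  refine ⟨Q, ?_, ?_⟩
  · rw [show Int.castRingHom ℚ = algebraMap ℤ ℚ from rfl, hb']
    refine PerfectField.separable_iff_squarefree.mpr (hsq.squarefree_of_dvd ?_)
    have hu : IsUnit (C (b : ℚ)) :=
      Polynomial.isUnit_C.mpr (IsUnit.mk0 _ (by exact_mod_cast hb0))
    exact hu.mul_left_dvd.mpr dvd_rfl
  · have hid : C c * Q ^ n = C (b ^ n) * (P * s') := by
      apply Polynomial.map_injective (algebraMap ℤ ℚ) (algebraMap ℤ ℚ).injective_int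
      simp only [Polynomial.map_pow, Polynomial.map_mul, Polynomial.map_C, hb', hc', ← hPq]
      rw [mul_pow, hs]
      simp only [algebraMap_int_eq, eq_intCast, Int.cast_pow, C_pow]
      ring
    have h1 := congrArg (aeval x) hid
    simp only [map_pow, map_mul, hP', zero_mul, mul_zero, aeval_C] at h1
    have h2 : (aeval x Q) ^ n = 0 := by
      have h3 : c • (aeval x Q) ^ n = 0 := by
        rw [zsmul_eq_mul]; simpa using h1
      rcases smul_eq_zero.mp h3 with h | h
      · exact absurd h hc0
      · exact h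
    exact IsReduced.eq_zero _ ⟨n, h2⟩

/-- Abstract engine: a finite free algebra `T` over a domain `𝒪` of characteristic zero which is
generated over `𝒪` by the image of a ring `R` all of whose elements are roots of integer
polynomials separable over `ℚ` is reduced. -/
theorem isReduced_of_adjoin_range {R 𝒪 T : Type*} [CommRing R] [CommRing 𝒪] [IsDomain 𝒪]
    [CharZero 𝒪] [CommRing T] [Algebra 𝒪 T] [Module.Finite 𝒪 T] [Module.Free 𝒪 T]
    (π : R →+* T) (hπ : Algebra.adjoin 𝒪 (Set.range π) = ⊤)
    (hsep : ∀ x : R, ∃ Q : ℤ[X], (Q.map (Int.castRingHom ℚ)).Separable ∧ aeval x Q = 0) :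
    IsReduced T := by
  classical
  let K := FractionRing 𝒪
  have : CharZero K := charZero_of_injective_algebraMap (IsFractionRing.injective 𝒪 K)
  let B := K ⊗[𝒪] T
  have hinj : Function.Injective (Algebra.TensorProduct.includeRight : T →ₐ[𝒪] K ⊗[𝒪] T) :=
    Algebra.TensorProduct.includeRight_injective (IsFractionRing.injective 𝒪 K)
  let L : T →+* Module.End K B :=
    (Algebra.lmul K B).toRingHom.comp
      (Algebra.TensorProduct.includeRight : T →ₐ[𝒪] K ⊗[𝒪] T).toRingHom
  have hcomm : ∀ a b : T, Commute (L a) (L b) := fun a b => by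
    rw [Commute, SemiconjBy, ← map_mul, ← map_mul, mul_comm]
  have hss : ∀ t : T, (L t).IsSemisimple := by
    intro t
    have ht : t ∈ Algebra.adjoin 𝒪 (Set.range π) := hπ ▸ Algebra.mem_top
    induction ht using Algebra.adjoin_induction with
    | mem t ht =>
      obtain ⟨x, rfl⟩ := ht
      obtain ⟨Q, hQ, hx⟩ := hsep x
      refine Module.End.isSemisimple_of_squarefree_aeval_eq_zero
        (p := Q.map (algebraMap ℤ K)) ?_ ?_
      · have : Q.map (algebraMap ℤ K) = (Q.map (Int.castRingHom ℚ)).map (algebraMap ℚ K) := by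
          rw [Polynomial.map_map]
          congr 1
          exact RingHom.ext_int _ _
        rw [this]
        exact hQ.map.squarefree
      · have h1 := Polynomial.hom_eval₂ Q (algebraMap ℤ R) (L.comp π) x
        rw [show eval₂ (algebraMap ℤ R) x Q = 0 from hx, map_zero] at h1
        rw [aeval_def, Polynomial.eval₂_map,
          RingHom.ext_int ((algebraMap K (Module.End K B)).comp (algebraMap ℤ K))
            ((L.comp π).comp (algebraMap ℤ R))]
        exact h1.symm
    | algebraMap r =>
      have : L (algebraMap 𝒪 T r) = (algebraMap 𝒪 K r) • (LinearMap.id : Module.End K B) := by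
        apply LinearMap.ext
        intro y
        simp only [L, RingHom.coe_comp, Function.comp_apply, AlgHom.toRingHom_eq_coe,
          RingHom.coe_coe, AlgHom.commutes, LinearMap.smul_apply, LinearMap.id_coe, id_eq]
        rw [IsScalarTower.algebraMap_apply 𝒪 K (K ⊗[𝒪] T)]
        exact (Algebra.smul_def ((algebraMap 𝒪 K) r) y).symm
      rw [this]
      exact Module.End.IsSemisimple_smul _ Module.End.isSemisimple_id
    | add a b _ _ ha hb =>
      rw [map_add]
      exact Module.End.IsSemisimple.add_of_commute (hcomm a b) ha hb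
    | mul a b _ _ ha hb =>
      rw [map_mul]
      exact Module.End.IsSemisimple.mul_of_commute (hcomm a b) ha hb
  refine ⟨fun t ht => ?_⟩
  have h0 : L t = 0 := Module.End.eq_zero_of_isNilpotent_isSemisimple (ht.map L) (hss t)
  apply hinj
  have := congrArg (fun f => f 1) h0
  simpa [L] using this

section Datum

variable {N : ℕ} [NeZero N] {S : Set ℕ}
  {𝒪 : Type} [CommRing 𝒪] [IsDomain 𝒪] [IsDiscreteValuationRing 𝒪]
  [IsAdicComplete (IsLocalRing.maximalIdeal 𝒪) 𝒪]
  {θ : CuspForm.heckeAlgebra N 2 S →+* IsLocalRing.ResidueField 𝒪}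
  {T : Type} [CommRing T] [IsLocalRing T] [IsNoetherianRing T]
  [IsAdicComplete (IsLocalRing.maximalIdeal T) T] [Algebra 𝒪 T] [IsLocalHom (algebraMap 𝒪 T)]
  [Module.Finite 𝒪 T] [Module.Free 𝒪 T]

/-- Every element of the anemic Hecke algebra is a root of an integer polynomial which is
separable over `ℚ`. -/
theorem heckeAlgebra_exists_separable (N : ℕ) [NeZero N] (S : Set ℕ)
    (hNS : ∀ q : ℕ, q.Prime → q ∣ N → q ∈ S) (x : CuspForm.heckeAlgebra N 2 S) :
    ∃ Q : ℤ[X], (Q.map (Int.castRingHom ℚ)).Separable ∧ aeval x Q = 0 := by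
  have := isReduced_heckeAlgebra N S hNS
  have : Module.Finite ℤ (CuspForm.heckeAlgebra N 2 S) := Fermat.Agent.S22.result N 2 S
  exact exists_separable_aeval_eq_zero (IsIntegral.of_finite ℤ x)

/-- **(R) for a Hecke–Galois datum**: the coefficient ring `T` is reduced. -/
theorem isReduced_of_datum [CharZero 𝒪] (hNS : ∀ q : ℕ, q.Prime → q ∣ N → q ∈ S)
    (H : CuspForm.HeckeGaloisRepDatum N S 𝒪 θ T) : IsReduced T :=
  isReduced_of_adjoin_range H.π H.adjoin_range_π (heckeAlgebra_exists_separable N S hNS)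

/-- An element of `T` lying in every minimal prime is zero. -/
theorem eq_zero_of_mem_minimalPrimes [CharZero 𝒪] (hNS : ∀ q : ℕ, q.Prime → q ∣ N → q ∈ S)
    (H : CuspForm.HeckeGaloisRepDatum N S 𝒪 θ T) {t : T}
    (ht : ∀ 𝔭 ∈ minimalPrimes T, t ∈ 𝔭) : t = 0 := by
  have := isReduced_of_datum hNS H
  have h1 : t ∈ sInf (minimalPrimes T) := Submodule.mem_sInf.mpr ht
  rw [minimalPrimes, Ideal.sInf_minimalPrimes] at h1
  exact IsReduced.eq_zero t h1

/-- A nonzero element of `T` avoids some minimal prime. -/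
theorem exists_minimalPrime_notMem [CharZero 𝒪] (hNS : ∀ q : ℕ, q.Prime → q ∣ N → q ∈ S)
    (H : CuspForm.HeckeGaloisRepDatum N S 𝒪 θ T) {t : T} (ht : t ≠ 0) :
    ∃ 𝔭 ∈ minimalPrimes T, t ∉ 𝔭 := by
  by_contra hcon
  exact ht (eq_zero_of_mem_minimalPrimes hNS H fun 𝔭 h𝔭 =>
    by_contra fun h => hcon ⟨𝔭, h𝔭, h⟩)

/-- An ideal of `T` contained in every minimal prime is zero. -/
theorem eq_bot_of_le_minimalPrimes [CharZero 𝒪] (hNS : ∀ q : ℕ, q.Prime → q ∣ N → q ∈ S)
    (H : CuspForm.HeckeGaloisRepDatum N S 𝒪 θ T) (J : Ideal T)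
    (hJ : ∀ 𝔭 ∈ minimalPrimes T, J ≤ 𝔭) : J = ⊥ :=
  (Submodule.eq_bot_iff J).mpr fun _ ht =>
    eq_zero_of_mem_minimalPrimes hNS H fun 𝔭 h𝔭 => hJ 𝔭 h𝔭 ht

end Datum

end Fermat.Agent.Pet
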